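import Fermat.Agent.EC.Reduction.GoodPrime
import Mathlib.Tactic.IntervalCases

/-!
# The Frey curve at good primes

The integral model of the Frey curve, its invariants and its good primes.
`galoisRepUnramifiedAt_of_not_dvd`: the mod `p` representation is unramified at the primes `q ≠ p`
not dividing `a b c`; with `EC/Multiplicative/Frey` this gives `S05`. The proof:

1. The Frey curve is the base change of an integral model (`freyCurve_eq_map`).
2. `2 ^ 8 Δ = (a b c) ^ (2 p)`, so `q ∤ Δ` (`Δ_eq`, `not_dvd_Δ`).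
3. At a good prime inertia fixes the torsion of order prime to `q` (`EC/Reduction/GoodPrime`).

The primes dividing `a b c` do not divide `c₄` (`not_dvd_c₄`): there the model is multiplicative.
-/

set_option autoImplicit false

open WeierstrassCurve

namespace Fermat.Agent.EC.Reduction.Frey

variable (P : FreyPackage)

/-! ## The integral model -/

/-- `a ^ p ≡ 3 (mod 4)`. -/
lemma pow_a_cast : ((P.a ^ P.p : ℤ) : ZMod 4) = 3 := by
  obtain ⟨k, hk⟩ := P.hp_odd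
  rw [Int.cast_pow, P.ha4, hk, pow_succ, pow_mul, show (3 : ZMod 4) ^ 2 = 1 by decide, one_pow,
    one_mul]

/-- `2⁵` divides `b ^ p`. -/
lemma two_pow_dvd_pow_b : (2 : ℤ) ^ 5 ∣ P.b ^ P.p :=
  (pow_dvd_pow_of_dvd ((ZMod.intCast_zmod_eq_zero_iff_dvd P.b 2).mp P.hb2) 5).trans
    (pow_dvd_pow P.b P.hp5)

/-- The numerator of `a₂` is divisible by `4`. -/
lemma four_dvd : (4 : ℤ) ∣ P.b ^ P.p - 1 - P.a ^ P.p := by
  rw [show (4 : ℤ) = ((4 : ℕ) : ℤ) from rfl, ← ZMod.intCast_zmod_eq_zero_iff_dvd]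
  push_cast
  have h : ((P.b ^ P.p : ℤ) : ZMod 4) = 0 := by
    rw [ZMod.intCast_zmod_eq_zero_iff_dvd]
    exact (show (4 : ℤ) ∣ 2 ^ 5 by norm_num).trans (two_pow_dvd_pow_b P)
  have ha := pow_a_cast P
  push_cast at h ha
  rw [h, ha]
  decide

/-- The numerator of `a₄` is divisible by `16`. -/
lemma sixteen_dvd : (16 : ℤ) ∣ -(P.a ^ P.p) * P.b ^ P.p :=
  dvd_mul_of_dvd_right ((show (16 : ℤ) ∣ 2 ^ 5 by norm_num).trans (two_pow_dvd_pow_b P)) _

/-- `4 a₂ = b ^ p - 1 - a ^ p` for the integral Frey model. -/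
lemma four_mul_a₂ : 4 * P.freyCurveInt.a₂ = P.b ^ P.p - 1 - P.a ^ P.p :=
  Int.mul_ediv_cancel' (four_dvd P)

/-- `16 a₄ = -a ^ p b ^ p` for the integral Frey model. -/
lemma sixteen_mul_a₄ : 16 * P.freyCurveInt.a₄ = -(P.a ^ P.p) * P.b ^ P.p :=
  Int.mul_ediv_cancel' (sixteen_dvd P)

/-- The Frey curve is the base change of its integral model. -/
lemma freyCurve_eq_map : P.freyCurve = P.freyCurveInt.map (Int.castRingHom ℚ) := by
  ext
  · simp [FreyPackage.freyCurve, FreyPackage.freyCurveInt]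
  · rw [map_a₂, eq_intCast]
    have h := congr_arg (Int.cast : ℤ → ℚ) (four_mul_a₂ P)
    push_cast at h
    show ((P.b : ℚ) ^ P.p - 1 - (P.a : ℚ) ^ P.p) / 4 = _
    linear_combination -h / 4
  · simp [FreyPackage.freyCurve, FreyPackage.freyCurveInt]
  · rw [map_a₄, eq_intCast]
    have h := congr_arg (Int.cast : ℤ → ℚ) (sixteen_mul_a₄ P)
    push_cast at h
    show -((P.a : ℚ) ^ P.p) * (P.b : ℚ) ^ P.p / 16 = _
    linear_combination -h / 16
  · simp [FreyPackage.freyCurve, FreyPackage.freyCurveInt]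

/-! ## Discriminant and `c₄` -/

/-- `2 ^ 8 * Δ = (a b c) ^ (2 p)`. -/
lemma Δ_eq : 2 ^ 8 * P.freyCurveInt.Δ = (P.a * P.b * P.c) ^ (2 * P.p) := by
  have h₂ := four_mul_a₂ P
  have h₄ := sixteen_mul_a₄ P
  have hc := P.hFLT
  rw [mul_comm 2 P.p, pow_mul,
    show (P.a * P.b * P.c) ^ P.p = P.a ^ P.p * P.b ^ P.p * P.c ^ P.p by ring, ← hc]
  generalize hA : P.a ^ P.p = A at h₂ h₄ ⊢
  generalize hB : P.b ^ P.p = B at h₂ h₄ ⊢
  have e₁ : P.freyCurveInt.a₁ = 1 := rfl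
  have e₃ : P.freyCurveInt.a₃ = 0 := rfl
  have e₆ : P.freyCurveInt.a₆ = 0 := rfl
  simp only [WeierstrassCurve.Δ, b₂, b₄, b₆, b₈, e₁, e₃, e₆]
  generalize P.freyCurveInt.a₂ = c₂ at h₂ ⊢
  generalize P.freyCurveInt.a₄ = c₄ at h₄ ⊢
  refine mul_left_cancel₀ (two_ne_zero (α := ℤ)) ?_
  linear_combination (512 * c₄ ^ 2 * (1 + 4 * c₂) - 512 * c₄ ^ 2 * (B - A)
    + 1024 * c₄ ^ 2 * (B - A))
    * h₂ + (2 * (B - A) ^ 2 * (16 * c₄) - 2 * (B - A) ^ 2 * (A * B) - 8 * (16 * c₄) ^ 2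
      + 8 * (16 * c₄) * (A * B) - 8 * (A * B) ^ 2) * h₄

/-- `c₄ = a ^ (2p) + a ^ p b ^ p + b ^ (2p)`. -/
lemma c₄_eq : P.freyCurveInt.c₄ =
    (P.a ^ P.p) ^ 2 + P.a ^ P.p * P.b ^ P.p + (P.b ^ P.p) ^ 2 := by
  have h₂ := four_mul_a₂ P
  have h₄ := sixteen_mul_a₄ P
  have e₁ : P.freyCurveInt.a₁ = 1 := rfl
  have e₃ : P.freyCurveInt.a₃ = 0 := rfl
  simp only [WeierstrassCurve.c₄, b₂, b₄, e₁, e₃]
  generalize P.a ^ P.p = A at h₂ h₄ ⊢
  generalize P.b ^ P.p = B at h₂ h₄ ⊢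
  generalize P.freyCurveInt.a₂ = c₂ at h₂ ⊢
  generalize P.freyCurveInt.a₄ = c₄ at h₄ ⊢
  linear_combination (1 + 4 * c₂ + (B - A)) * h₂ - 3 * h₄

/-- The integral Frey model has nonzero discriminant. -/
lemma Δ_ne_zero : P.freyCurveInt.Δ ≠ 0 := fun h => by
  have := Δ_eq P
  rw [h, mul_zero] at this
  exact pow_ne_zero _ P.habc0 this.symm

/-- `2` divides the discriminant of the integral Frey model. -/
lemma two_dvd_Δ : (2 : ℤ) ∣ P.freyCurveInt.Δ := by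
  have h9 : (2 : ℤ) ^ 9 ∣ (P.a * P.b * P.c) ^ (2 * P.p) :=
    (pow_dvd_pow_of_dvd P.two_dvd_abc 9).trans (pow_dvd_pow _ (by have := P.hp5; omega))
  rw [← Δ_eq P, show (2 : ℤ) ^ 9 = 2 ^ 8 * 2 by norm_num] at h9
  exact Int.dvd_of_mul_dvd_mul_left (by norm_num) h9

/-- A prime not dividing `abc` does not divide the discriminant of the integral Frey model. -/
lemma not_dvd_Δ {q : ℕ} (hq : q.Prime) (h : ¬ (q : ℤ) ∣ P.a * P.b * P.c) :
    ¬ (q : ℤ) ∣ P.freyCurveInt.Δ := fun hd =>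
  h ((Nat.prime_iff_prime_int.mp hq).dvd_of_dvd_pow (Δ_eq P ▸ hd.mul_left _))

/-- An odd prime dividing `abc` divides the discriminant. -/
lemma dvd_Δ {q : ℕ} (hq : q.Prime) (hq2 : q ≠ 2) (h : (q : ℤ) ∣ P.a * P.b * P.c) :
    (q : ℤ) ∣ P.freyCurveInt.Δ := by
  have hp : Prime (q : ℤ) := Nat.prime_iff_prime_int.mp hq
  refine (hp.dvd_mul.mp (Δ_eq P ▸ dvd_pow h (by have := P.hp5; omega))).resolve_left fun h2 => ?_
  have := hp.dvd_of_dvd_pow h2
  rw [show (2 : ℤ) = ((2 : ℕ) : ℤ) from rfl, Int.natCast_dvd_natCast,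
    Nat.prime_dvd_prime_iff_eq hq Nat.prime_two] at this
  exact hq2 this

/-- A prime does not divide two coprime numbers. -/
lemma not_dvd_both {q : ℕ} (hq : q.Prime) {x y : ℤ} (h : gcd x y = 1) (hx : (q : ℤ) ∣ x)
    (hy : (q : ℤ) ∣ y) : False :=
  (Nat.prime_iff_prime_int.mp hq).not_isUnit (isUnit_of_dvd_one (h ▸ dvd_gcd hx hy))

/-- The primes dividing `abc` do not divide `c₄`. -/
lemma not_dvd_c₄ {q : ℕ} (hq : q.Prime) (h : (q : ℤ) ∣ P.a * P.b * P.c) :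
    ¬ (q : ℤ) ∣ P.freyCurveInt.c₄ := by
  rw [c₄_eq]
  intro h4
  have hp : Prime (q : ℤ) := Nat.prime_iff_prime_int.mp hq
  rcases hp.dvd_mul.mp h with hab | hc
  · rcases hp.dvd_mul.mp hab with ha | hb
    · refine not_dvd_both hq P.hgcdab ha (hp.dvd_of_dvd_pow (hp.dvd_of_dvd_pow (n := 2)
        (?_ : (q : ℤ) ∣ (P.b ^ P.p) ^ 2)))
      have := dvd_pow ha P.hp0
      refine (dvd_add_right (dvd_add (dvd_pow this two_ne_zero) (this.mul_right _))).mp h4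
    · refine not_dvd_both hq P.hgcdab (hp.dvd_of_dvd_pow (hp.dvd_of_dvd_pow (n := 2)
        (?_ : (q : ℤ) ∣ (P.a ^ P.p) ^ 2))) hb
      have := dvd_pow hb P.hp0
      exact (dvd_add_left (this.mul_left _)).mp
        ((dvd_add_left (dvd_pow this two_ne_zero)).mp h4)
  · have hc' : (q : ℤ) ∣ P.a ^ P.p + P.b ^ P.p := P.hFLT ▸ dvd_pow hc P.hp0
    have : (q : ℤ) ∣ P.a ^ P.p * P.b ^ P.p := by
      have := dvd_sub (dvd_pow hc' two_ne_zero) h4
      rwa [show (P.a ^ P.p + P.b ^ P.p) ^ 2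
        - ((P.a ^ P.p) ^ 2 + P.a ^ P.p * P.b ^ P.p + (P.b ^ P.p) ^ 2)
        = P.a ^ P.p * P.b ^ P.p by ring] at this
    rcases hp.dvd_mul.mp this with ha | hb
    · exact not_dvd_both hq P.hgcdac (hp.dvd_of_dvd_pow ha) hc
    · exact not_dvd_both hq P.hgcdbc (hp.dvd_of_dvd_pow hb) hc

/-! ## Good primes -/

/-- Good primes: the representation of the Frey curve is unramified at `q ≠ p` prime to `abc`. -/
theorem galoisRepUnramifiedAt_of_not_dvd {q : ℕ} (hq : q.Prime) (hqp : q ≠ P.p)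
    (h : ¬ (q : ℤ) ∣ P.a * P.b * P.c) : P.GaloisRepUnramifiedAt q := by
  unfold FreyPackage.GaloisRepUnramifiedAt
  rw [freyCurve_eq_map]
  exact galoisRepUnramifiedAt_of_good _ hq (not_dvd_Δ P hq h)
    fun hd => hqp ((Nat.prime_dvd_prime_iff_eq hq P.pp).mp hd)

end Fermat.Agent.EC.Reduction.Frey
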